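/-
S44 / DEPTH, the instance, block KS (architect helper219), node KS-1 (helper211), CORE:
descent of a Kummer unit whose class is fixed by a subgroup `H` of the inertia group to the fixed
field `Lf A H hH` of `H`, with the two glue nodes GL-1 (`exists_model`) and GL-2 (`horDiv_of_isKum`)
as explicit hypotheses (so that this file does not depend on them).
-/
import Fermat.Agent.S44.Depth.Inst.Defs
import Fermat.Agent.S36.Desc.FixedRep

set_option autoImplicit false

noncomputable section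

namespace Fermat.Agent.S44.Depth.Inst

open ModularCurve AlgebraicCurve Fermat.Agent.S24 Fermat.Agent.GAL Fermat.Agent.S44.X
  Fermat.Agent.Lib.InertiaField Fermat.Agent.S18.Descent Fermat.Agent.BAD.Bridge
  Fermat.Agent.S28.Export Fermat.Agent.S36.BP Fermat.Agent.BAD.LevelQ.Mod
open Fermat.Agent.S18 (IsUnif)

variable {A : ValuationSubring S44.Qb}

/-- `ℚ̄` is algebraic over every fixed field. -/
theorem ksDescent_isAlgebraic (H : Subgroup S44.GQ) (hH : H ≤ Iner A) :
    Algebra.IsAlgebraic (Lf A H hH) S44.Qb := by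
  have h0 : Algebra.IsAlgebraic ℚ S44.Qb := AlgebraicClosure.isAlgebraic ℚ
  exact Algebra.IsAlgebraic.tower_top (K := ℚ) (Lf A H hH)

/-- KS-1 with GL-1 and GL-2 (for the field `Lf A H hH`) as hypotheses. -/
theorem ksDescent_core (H : Subgroup S44.GQ) (hH : H ≤ Iner A) (N n : ℕ) (hn : n ≠ 0)
    (hGL1 : ∀ y : FN N,
      (∀ k : ℤ, (y : LaurentSeries Kbar).coeff k ∈ Set.range (algebraMap (Lf A H hH) S44.Qb)) →
        ∃ y' : FK (Lf A H hH) N, bcK (Lf A H hH) N y' = y)
    (hGL2 : ∀ u : FK (Lf A H hH) N, u ≠ 0 → E.IsKum N n (bcK (Lf A H hH) N u) →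
      HorDiv (Lf A H hH) n u)
    (U : FN N) (hU0 : U ≠ 0) (hU : E.IsKum N n U)
    (hfix : ∀ σ ∈ H, ∃ h : FN N, E.galF N σ U = U * h ^ n) :
    ∃ (v : FK (Lf A H hH) N) (g : FN N), v ≠ 0 ∧ g ≠ 0 ∧ HorDiv (Lf A H hH) n v ∧
      bcK (Lf A H hH) N v = U * g ^ n := by
  obtain ⟨b, hb0, hb⟩ := S36.Desc.exists_fixed_mul_pow N n (Nat.pos_of_ne_zero hn) H U hU0 hfix
  have hcoef : ∀ k : ℤ, ((U * b ^ n : FN N) : LaurentSeries Kbar).coeff k ∈
      Set.range (algebraMap (Lf A H hH) S44.Qb) := by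
    intro k
    refine ⟨⟨((U * b ^ n : FN N) : LaurentSeries Kbar).coeff k, ?_⟩, rfl⟩
    intro σ hσ
    have h1 := congrArg (fun x : FN N => (x : LaurentSeries Kbar).coeff k) (hb σ hσ)
    simp only [E.coe_galF, coeffMap_coeff] at h1
    exact h1
  obtain ⟨v, hv⟩ := hGL1 (U * b ^ n) hcoef
  have hne : U * b ^ n ≠ 0 := mul_ne_zero hU0 (pow_ne_zero _ hb0)
  have hv0 : v ≠ 0 := by
    rintro rfl
    rw [map_zero] at hv
    exact hne hv.symm
  refine ⟨v, b, hv0, hb0, ?_, hv⟩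
  apply hGL2 v hv0
  rw [hv]
  exact hU.mul (E.isKum_pow_self N n b)

end Fermat.Agent.S44.Depth.Inst

end
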