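/-
S44 / DEPTH, the instance, block KS (architect helper219), node KS-1: descent of a Kummer unit whose
class is fixed by a subgroup `H` of the inertia group.  Wrapper around `KS/DescentCore.lean`
(helper211) with the landed glue nodes GL-1 (`exists_model`) and GL-2 (`horDiv_of_isKum`).
-/
import Fermat.Agent.S44.Depth.Inst.KS.DescentCore
import Fermat.Agent.S44.Depth.Inst.GL.Model
import Fermat.Agent.S44.Depth.Inst.GL.HorDiv

set_option autoImplicit false

noncomputable section

namespace Fermat.Agent.S44.Depth.Inst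

open ModularCurve AlgebraicCurve Fermat.Agent.S24 Fermat.Agent.GAL Fermat.Agent.S44.X
  Fermat.Agent.Lib.InertiaField Fermat.Agent.S18.Descent Fermat.Agent.BAD.Bridge
  Fermat.Agent.S28.Export Fermat.Agent.S36.BP Fermat.Agent.BAD.LevelQ.Mod
open Fermat.Agent.S18 (IsUnif)

variable {A : ValuationSubring S44.Qb}

/-- KS-1: descent of a Kummer unit whose class is fixed by `H`. -/
theorem exists_descent (H : Subgroup S44.GQ) (hH : H ≤ Iner A) (N n : ℕ) [NeZero N] (hn : n ≠ 0)
    (U : FN N) (hU0 : U ≠ 0) (hU : E.IsKum N n U)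
    (hfix : ∀ σ ∈ H, ∃ h : FN N, E.galF N σ U = U * h ^ n) :
    ∃ (v : FK (Lf A H hH) N) (g : FN N), v ≠ 0 ∧ g ≠ 0 ∧ HorDiv (Lf A H hH) n v ∧
      bcK (Lf A H hH) N v = U * g ^ n := by
  have : Algebra.IsAlgebraic (Lf A H hH) S44.Qb := ksDescent_isAlgebraic H hH
  exact ksDescent_core H hH N n hn (fun y hy => exists_model (Lf A H hH) N y hy)
    (fun u hu0 hu => horDiv_of_isKum (Lf A H hH) N n u hu0 hu) U hU0 hU hfix

end Fermat.Agent.S44.Depth.Inst

end
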