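/- Re-export: the nodes KS-2..5 are proved in `Depth/Inst/KS.lean` (landed first). -/
import Fermat.Agent.S44.Depth.Inst.KS
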